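import Fermat.Agent.S18x.Asm.Defs
import Fermat.Agent.S18x.Dict.H20_GaussDefs

/-!
# S18: the per-exponent interfaces of the Kummer statement (helper18)

* `StKummerAt A N m` : the body of `Asm.StKummer` at ONE fixed exponent `m` (no prime `ℓ`);
  `Asm.StKummer A N ℓ ↔ ∀ m, ¬ ℓ ∣ m → StKummerAt A N m` is `Iff.rfl`.
* `StKumVAt A N m` : the Gauss-ring form: a modular function `f` of level `N` (over `ℚ̄`) lying
  in the Gauss ring of `A`, with Gauss reduction `1`, all of whose orders are divisible by `m`,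
  is an `m`-th power of a modular function of level `N`.
* `StKumVPrime A N ℓ` : `StKumVAt A N p` for all primes `p ≠ ℓ` (what [SPEC] + [IG] deliver).
-/

set_option autoImplicit false
set_option synthInstance.maxHeartbeats 400000
set_option maxHeartbeats 1000000

open HahnSeries IntermediateField AlgebraicCurve ModularCurve

noncomputable section

namespace Fermat.Agent.S18x.Kum

variable (A : ValuationSubring (AlgebraicClosure ℚ)) (N : ℕ) [NeZero N]

/-- The Kummer statement at one fixed exponent `m` (body of `Asm.StKummer`). -/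
def StKummerAt (m : ℕ) : Prop :=
  ∀ (Y₁ Y₂ : LaurentSeries A)
    (h₁ : coeffMap A.subtype Y₁ ∈ modularFunctionFieldBar N)
    (h₂ : coeffMap A.subtype Y₂ ∈ modularFunctionFieldBar N),
    coeffMap (IsLocalRing.residue A) Y₁ ∈
        modularFunctionFieldFullC (IsLocalRing.ResidueField A) N →
    coeffMap (IsLocalRing.residue A) Y₁ = coeffMap (IsLocalRing.residue A) Y₂ →
    coeffMap (IsLocalRing.residue A) Y₁ ≠ 0 →
    ∀ D : Divisor (AlgebraicClosure ℚ) (modularFunctionFieldBar N),
      (∀ P : Place (AlgebraicClosure ℚ) (modularFunctionFieldBar N),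
        (m : ℤ) * D P =
          P.ord (⟨coeffMap A.subtype Y₁, h₁⟩ : modularFunctionFieldBar N) -
            P.ord (⟨coeffMap A.subtype Y₂, h₂⟩ : modularFunctionFieldBar N)) →
      Divisor.IsPrincipal D

theorem stKummer_iff (ℓ : ℕ) :
    Asm.StKummer A N ℓ ↔ ∀ m : ℕ, ¬ ℓ ∣ m → StKummerAt A N m := Iff.rfl

/-- **The Gauss-ring form of the Kummer statement at the exponent `m`.** -/
def StKumVAt (m : ℕ) : Prop :=
  ∀ (f : modularFunctionFieldBar N)
    (hf : (f : LaurentSeries (AlgebraicClosure ℚ)) ∈ Dict.H20.gaussRing A),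
    Dict.H20.gaussRed A ⟨(f : LaurentSeries (AlgebraicClosure ℚ)), hf⟩ = 1 →
    (∀ P : Place (AlgebraicClosure ℚ) (modularFunctionFieldBar N), (m : ℤ) ∣ P.ord f) →
    ∃ u : modularFunctionFieldBar N, u ^ m = f

/-- The Gauss-ring form at all exponents prime to `ℓ`. -/
def StKumV (ℓ : ℕ) : Prop := ∀ m : ℕ, ¬ ℓ ∣ m → StKumVAt A N m

/-- The Gauss-ring form at all prime exponents `p ≠ ℓ`. -/
def StKumVPrime (ℓ : ℕ) : Prop := ∀ p : ℕ, p.Prime → p ≠ ℓ → StKumVAt A N p

/-- The Kummer statement at all prime exponents `p ≠ ℓ`. -/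
def StKummerPrime (ℓ : ℕ) : Prop := ∀ p : ℕ, p.Prime → p ≠ ℓ → StKummerAt A N p

end Fermat.Agent.S18x.Kum
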