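import Fermat.Agent.S18x.Kum.Defs
import Fermat.Agent.S18x.Asm.H12_TopPrime

/-!
# S18: the frozen statement from the Gauss-ring form of the Kummer criterion at prime exponents
(helper12)

* `h12_stKumPowAt_of_kumVAt` : `Kum.StKumVAt A N m → Asm.H12.StKumPowAt A N m`
  (an integral series `y` with `red y = 1` lies in the Gauss ring and has Gauss reduction `1`);
* `h12_result_of_kumVPrime` : `Kum.StKumVPrime A N ℓ →` the frozen S18 statement
  (the leaves (LIFT), (CONST) are plugged in; no induction on the exponent is left).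
-/

set_option autoImplicit false
set_option synthInstance.maxHeartbeats 400000
set_option maxHeartbeats 1000000

open ModularCurve AlgebraicCurve HahnSeries

noncomputable section

namespace Fermat.Agent.S18x.Kum.H12

variable (A : ValuationSubring (AlgebraicClosure ℚ)) (N : ℕ) [NeZero N]

theorem h12_stKumPowAt_of_kumVAt {m : ℕ} (h : Fermat.Agent.S18x.Kum.StKumVAt A N m) :
    Fermat.Agent.S18x.Asm.H12.StKumPowAt A N m := by
  intro y hy hred hdvd
  have hf : ((Fermat.Agent.S18x.Asm.H24.toBar A N hy : modularFunctionFieldBar N) :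
      LaurentSeries (AlgebraicClosure ℚ)) ∈ Fermat.Agent.S18x.Dict.H20.gaussRing A :=
    Fermat.Agent.S18x.Dict.H20.coeffMap_subtype_mem_gaussRing A y
  have hr : Fermat.Agent.S18x.Dict.H20.gaussRed A
      ⟨((Fermat.Agent.S18x.Asm.H24.toBar A N hy : modularFunctionFieldBar N) :
        LaurentSeries (AlgebraicClosure ℚ)), hf⟩ = 1 := by
    have := Fermat.Agent.S18x.Dict.H20.gaussRed_coeffMap_subtype A y
    rw [← hred]
    exact this
  obtain ⟨u, hu⟩ := h (Fermat.Agent.S18x.Asm.H24.toBar A N hy) hf hr hdvd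
  exact ⟨u, 1, one_ne_zero, by rw [map_one, one_mul, hu]⟩

/-- **S18 from the Gauss-ring form of (KUM) at the primes `p ≠ ℓ`.** -/
theorem h12_result_of_kumVPrime {ℓ : ℕ} [Fact ℓ.Prime] (hℓN : ¬ ℓ ∣ N)
    (hA : A.LiesOverPrime ℓ) (hKum : Fermat.Agent.S18x.Kum.StKumVPrime A N ℓ)
    (h : ModularCurve.ReductionInputsModL A N) (m : ℕ) (hm : ¬ ℓ ∣ m) (z : ModularCurve.JZero N)
    (hmz : m • z = 0) (hz : ModularCurve.reductionModL A N z = 0) : z = 0 :=
  Fermat.Agent.S18x.Asm.H12.h12_result_of_prime_pow A N hℓN hA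
    (fun p hp hpℓ => h12_stKumPowAt_of_kumVAt A N (hKum p hp hpℓ)) h m hm z hmz hz

end Fermat.Agent.S18x.Kum.H12
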