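import Fermat.Agent.S18x.Asm.H18_Top
import Fermat.Agent.S18x.Kum.Defs

/-!
# S18: the top wiring at prime exponents (helper18)

* `result_of_at` : `StKummerAt A N m → StLift → StConst → StDiv →` the frozen statement at the
  exponent `m` (no hypothesis `ℓ ∤ m`);
* `stKummerAt_of_stKumVAt` : the Gauss-ring form implies the divisor form (`m ≠ 0`);
* `result_of_prime` : the frozen statement (all `m` prime to `ℓ`) from `StKummerPrime A N ℓ`
  (induction on `m` inside `JZero N`);
* `result_of_kumV` : the same from `StKumVPrime A N ℓ`.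
-/

set_option autoImplicit false
set_option synthInstance.maxHeartbeats 400000
set_option maxHeartbeats 1000000

open HahnSeries IntermediateField AlgebraicCurve ModularCurve

noncomputable section

namespace Fermat.Agent.S18x.Kum

variable (A : ValuationSubring (AlgebraicClosure ℚ)) (N : ℕ) [NeZero N]

/-- The top assembly of S18 at ONE exponent `m` (same proof as `Asm.result_of`). -/
theorem result_of_at (m : ℕ) (hK : StKummerAt A N m) (hL : Asm.StLift A N)
    (hC : Asm.StConst A N) (hD : Asm.StDiv N) (h : ReductionInputsModL A N) (z : JZero N)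
    (hmz : m • z = 0) (hz : reductionModL A N z = 0) : z = 0 := by
  obtain ⟨D, rfl⟩ := Pic0.mk_surjective z
  have hr := isPlaceReductionModL_placeReductionModL h
  have hgen : PrincipalGeneratedByIntegral A (IsLocalRing.residue A) N := h.choose_spec.2
  set r := placeReductionModL h with hrdef
  -- the reduction of `D` is principal
  rw [reductionModL_mk h D] at hz
  have hz' : Finsupp.mapDomain r (D : Divisor (AlgebraicClosure ℚ) (modularFunctionFieldBar N)) ∈
      Divisor.principal (K := IsLocalRing.ResidueField A)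
        (F := modularFunctionFieldFullC (IsLocalRing.ResidueField A) N) := by
    have := (QuotientAddGroup.eq_zero_iff _).mp hz
    simpa [AddSubgroup.mem_addSubgroupOf] using this
  obtain ⟨g, hg0, hg⟩ := hz'
  -- lift `g`
  obtain ⟨y₀, hy₀F, hy₀⟩ := hL (g : LaurentSeries (IsLocalRing.ResidueField A)) g.2
    (fun h0 => hg0 (Subtype.ext h0))
  have hy₀k : coeffMap (IsLocalRing.residue A) y₀ ∈
      modularFunctionFieldFullC (IsLocalRing.ResidueField A) N := by rw [hy₀]; exact g.2
  have hy₀ne : coeffMap (IsLocalRing.residue A) y₀ ≠ 0 := by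
    rw [hy₀]; exact fun h0 => hg0 (Subtype.ext h0)
  have hy₀F0 : (⟨coeffMap A.subtype y₀, hy₀F⟩ : modularFunctionFieldBar N) ≠ 0 := fun h0 =>
    Asm.h18_ne_zero_of_residue_ne_zero A hy₀ne (congrArg Subtype.val h0)
  obtain ⟨E₀, hE₀⟩ := hD ⟨coeffMap A.subtype y₀, hy₀F⟩ hy₀F0
  have hgy : (⟨coeffMap (IsLocalRing.residue A) y₀, hy₀k⟩ :
      modularFunctionFieldFullC (IsLocalRing.ResidueField A) N) = g := Subtype.ext hy₀
  have hrE₀ : ∀ Q, Finsupp.mapDomain r E₀ Q = Q.ord g := fun Q => by
    rw [← hgy]; exact hr.2 y₀ hy₀F hy₀k hy₀ne E₀ hE₀ Q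
  -- `m • D` is principal
  have hmD : m • (D : Divisor (AlgebraicClosure ℚ) (modularFunctionFieldBar N)) ∈
      Divisor.principal (K := AlgebraicClosure ℚ) (F := modularFunctionFieldBar N) := by
    have h1 : Pic0.mk (m • D) = (0 : Pic0 (AlgebraicClosure ℚ) (modularFunctionFieldBar N)) := by
      rw [← hmz]; rfl
    have := (QuotientAddGroup.eq_zero_iff _).mp h1
    simpa [AddSubgroup.mem_addSubgroupOf] using this
  have hE₀p : E₀ ∈ Divisor.principal (K := AlgebraicClosure ℚ) (F := modularFunctionFieldBar N) :=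
    ⟨_, hy₀F0, hE₀⟩
  set D' : Divisor (AlgebraicClosure ℚ) (modularFunctionFieldBar N) :=
    (D : Divisor (AlgebraicClosure ℚ) (modularFunctionFieldBar N)) - E₀ with hD'
  have hmD' : m • D' ∈
      Divisor.principal (K := AlgebraicClosure ℚ) (F := modularFunctionFieldBar N) := by
    rw [hD', smul_sub]
    exact sub_mem hmD (nsmul_mem hE₀p m)
  have hrD' : Finsupp.mapDomain r D' = 0 := by
    have : Finsupp.mapDomain r D' = Finsupp.mapDomain r
        (D : Divisor (AlgebraicClosure ℚ) (modularFunctionFieldBar N)) - Finsupp.mapDomain r E₀ := by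
      rw [hD', ← Finsupp.mapDomain.addMonoidHom_apply, map_sub,
        Finsupp.mapDomain.addMonoidHom_apply, Finsupp.mapDomain.addMonoidHom_apply]
    rw [this]
    ext Q
    rw [Finsupp.sub_apply, hg Q, hrE₀ Q]
    simp
  obtain ⟨Y₁, Y₂, h₁, h₂, k₁, k₂, n₁, n₂, hP, hQ⟩ := Asm.h18_good_of_mem_closure hr (hgen hmD')
  -- the reduction of `Y₁ / Y₂` is a constant
  have hrm : Finsupp.mapDomain r (m • D') = 0 := by
    rw [← Finsupp.mapDomain.addMonoidHom_apply, map_nsmul, Finsupp.mapDomain.addMonoidHom_apply,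
      hrD', smul_zero]
  have z₁ : (⟨_, k₁⟩ : modularFunctionFieldFullC (IsLocalRing.ResidueField A) N) ≠ 0 :=
    fun h => n₁ (congrArg Subtype.val h)
  have z₂ : (⟨_, k₂⟩ : modularFunctionFieldFullC (IsLocalRing.ResidueField A) N) ≠ 0 :=
    fun h => n₂ (congrArg Subtype.val h)
  obtain ⟨c, hc⟩ := hC ((⟨_, k₁⟩ : modularFunctionFieldFullC (IsLocalRing.ResidueField A) N) *
      (⟨_, k₂⟩ : modularFunctionFieldFullC (IsLocalRing.ResidueField A) N)⁻¹)
    (mul_ne_zero z₁ (inv_ne_zero z₂)) (fun Q => by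
      rw [Q.ord_mul z₁ (inv_ne_zero z₂), Q.ord_inv]
      have := hQ Q
      rw [hrm] at this
      simp only [Finsupp.coe_zero, Pi.zero_apply] at this
      linarith)
  have hc0 : c ≠ 0 := by
    rintro rfl
    rw [map_zero] at hc
    exact mul_ne_zero z₁ (inv_ne_zero z₂) hc.symm
  obtain ⟨ct, hct⟩ := IsLocalRing.residue_surjective (R := A) c
  -- the corrected denominator
  set Y₂' : LaurentSeries A := HahnSeries.C ct * Y₂ with hY₂'
  have hY₂'F : coeffMap A.subtype Y₂' ∈ modularFunctionFieldBar N := by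
    rw [hY₂', map_mul]
    refine mul_mem ?_ h₂
    have : coeffMap A.subtype (HahnSeries.C ct) =
        algebraMap (AlgebraicClosure ℚ) (LaurentSeries (AlgebraicClosure ℚ)) (ct : AlgebraicClosure ℚ) := by
      rw [HahnSeries.C_apply, coeffMap_single, Asm.h18_algebraMap_eq_single]
      rfl
    rw [this]
    exact (modularFunctionFieldBar N).algebraMap_mem _
  have hred : coeffMap (IsLocalRing.residue A) Y₁ = coeffMap (IsLocalRing.residue A) Y₂' := by
    have e1 : (⟨_, k₁⟩ : modularFunctionFieldFullC (IsLocalRing.ResidueField A) N) =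
        algebraMap (IsLocalRing.ResidueField A)
          (modularFunctionFieldFullC (IsLocalRing.ResidueField A) N) c * ⟨_, k₂⟩ := by
      rw [hc, mul_assoc, inv_mul_cancel₀ z₂, mul_one]
    have e2 := congrArg Subtype.val e1
    have e3 : coeffMap (IsLocalRing.residue A) Y₁ =
        algebraMap (IsLocalRing.ResidueField A) (LaurentSeries (IsLocalRing.ResidueField A)) c *
          coeffMap (IsLocalRing.residue A) Y₂ := e2
    rw [e3, hY₂', map_mul, HahnSeries.C_apply, coeffMap_single, Asm.h18_algebraMap_eq_single, hct]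
  have hct0 : (ct : AlgebraicClosure ℚ) ≠ 0 := by
    intro h0
    apply hc0
    have : ct = 0 := Subtype.ext h0
    rw [← hct, this, map_zero]
  have hord : ∀ P : Place (AlgebraicClosure ℚ) (modularFunctionFieldBar N),
      (m : ℤ) * D' P = P.ord (⟨coeffMap A.subtype Y₁, h₁⟩ : modularFunctionFieldBar N) -
        P.ord (⟨coeffMap A.subtype Y₂', hY₂'F⟩ : modularFunctionFieldBar N) := by
    intro P
    have e1 : (⟨coeffMap A.subtype Y₂', hY₂'F⟩ : modularFunctionFieldBar N) =
        algebraMap (AlgebraicClosure ℚ) (modularFunctionFieldBar N) (ct : AlgebraicClosure ℚ) *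
          ⟨coeffMap A.subtype Y₂, h₂⟩ := by
      apply Subtype.ext
      show coeffMap A.subtype Y₂' = algebraMap (AlgebraicClosure ℚ)
        (LaurentSeries (AlgebraicClosure ℚ)) (ct : AlgebraicClosure ℚ) * coeffMap A.subtype Y₂
      rw [hY₂', map_mul, HahnSeries.C_apply, coeffMap_single, Asm.h18_algebraMap_eq_single]
      rfl
    have z₂F : (⟨coeffMap A.subtype Y₂, h₂⟩ : modularFunctionFieldBar N) ≠ 0 := fun h0 =>
      Asm.h18_ne_zero_of_residue_ne_zero A n₂ (congrArg Subtype.val h0)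
    have zc : algebraMap (AlgebraicClosure ℚ) (modularFunctionFieldBar N)
        (ct : AlgebraicClosure ℚ) ≠ 0 := by
      rw [Ne, map_eq_zero_iff _ (algebraMap (AlgebraicClosure ℚ)
        (modularFunctionFieldBar N)).injective]
      exact hct0
    rw [e1, P.ord_mul zc z₂F, Asm.h18_ord_const, zero_add, ← hP P, Finsupp.smul_apply, nsmul_eq_mul]
  have hD'p : Divisor.IsPrincipal D' := hK Y₁ Y₂' h₁ hY₂'F k₁ hred n₁ D' hord
  -- conclusion
  have hDp : (D : Divisor (AlgebraicClosure ℚ) (modularFunctionFieldBar N)) ∈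
      Divisor.principal (K := AlgebraicClosure ℚ) (F := modularFunctionFieldBar N) := by
    have : (D : Divisor (AlgebraicClosure ℚ) (modularFunctionFieldBar N)) = D' + E₀ := by
      rw [hD']; abel
    rw [this]
    exact add_mem hD'p hE₀p
  exact (QuotientAddGroup.eq_zero_iff _).mpr (by simpa [AddSubgroup.mem_addSubgroupOf] using hDp)


omit [NeZero N] in
/-- The Gauss-ring form of the Kummer statement implies the divisor form (`m ≠ 0`). -/
theorem stKummerAt_of_stKumVAt {m : ℕ} (hm : m ≠ 0) (hV : StKumVAt A N m) :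
    StKummerAt A N m := by
  intro Y₁ Y₂ h₁ h₂ _ hred hne D hD
  have hne₂ : coeffMap (IsLocalRing.residue A) Y₂ ≠ 0 := hred ▸ hne
  have n₁ : coeffMap A.subtype Y₁ ≠ 0 := Asm.h18_ne_zero_of_residue_ne_zero A hne
  have n₂ : coeffMap A.subtype Y₂ ≠ 0 := Asm.h18_ne_zero_of_residue_ne_zero A hne₂
  set f₁ : modularFunctionFieldBar N := ⟨coeffMap A.subtype Y₁, h₁⟩ with hf₁
  set f₂ : modularFunctionFieldBar N := ⟨coeffMap A.subtype Y₂, h₂⟩ with hf₂
  have z₁ : f₁ ≠ 0 := fun h0 => n₁ (congrArg Subtype.val h0)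
  have z₂ : f₂ ≠ 0 := fun h0 => n₂ (congrArg Subtype.val h0)
  obtain ⟨f, hfdef⟩ : ∃ f : modularFunctionFieldBar N, f = f₁ * f₂⁻¹ := ⟨_, rfl⟩
  have hf0 : f ≠ 0 := by rw [hfdef]; exact mul_ne_zero z₁ (inv_ne_zero z₂)
  have hmul : (f : LaurentSeries (AlgebraicClosure ℚ)) *
      coeffMap A.subtype Y₂ = coeffMap A.subtype Y₁ := by
    have : f * f₂ = f₁ := by rw [hfdef, mul_assoc, inv_mul_cancel₀ z₂, mul_one]
    exact congrArg Subtype.val this
  have hf : (f : LaurentSeries (AlgebraicClosure ℚ)) ∈ Dict.H20.gaussRing A :=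
    ⟨Y₁, Y₂, hne₂, hmul⟩
  have hone : Dict.H20.gaussRed A ⟨(f : LaurentSeries (AlgebraicClosure ℚ)), hf⟩ = 1 := by
    have key : Dict.H20.gaussRed A ⟨(f : LaurentSeries (AlgebraicClosure ℚ)), hf⟩ =
        coeffMap (IsLocalRing.residue A) Y₁ / coeffMap (IsLocalRing.residue A) Y₂ :=
      Dict.H20.gaussRed_eq A ⟨(f : LaurentSeries (AlgebraicClosure ℚ)), hf⟩ Y₁ Y₂ hne₂ hmul
    rw [key, hred, div_self hne₂]
  have hordf : ∀ P : Place (AlgebraicClosure ℚ) (modularFunctionFieldBar N),
      P.ord f = (m : ℤ) * D P := by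
    intro P
    rw [hfdef, P.ord_mul z₁ (inv_ne_zero z₂), P.ord_inv, hD P]
    ring
  obtain ⟨u, hu⟩ := hV f hf hone (fun P => ⟨D P, hordf P⟩)
  have hu0 : u ≠ 0 := by
    rintro rfl
    rw [zero_pow hm] at hu
    exact hf0 hu.symm
  refine ⟨u, hu0, fun P => ?_⟩
  have h1 : P.ord (u ^ m) = (m : ℤ) * P.ord u := by
    have := P.ord_zpow u (m : ℤ)
    rwa [zpow_natCast] at this
  have h2 : (m : ℤ) * D P = (m : ℤ) * P.ord u := by
    rw [← hordf P, ← h1, hu]
  exact mul_left_cancel₀ (Int.natCast_ne_zero.mpr hm) h2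

/-- **The frozen statement from the Kummer statement at prime exponents `p ≠ ℓ`**
(induction on `m` inside `JZero N`). -/
theorem result_of_prime {ℓ : ℕ} (hK : StKummerPrime A N ℓ) (hL : Asm.StLift A N)
    (hC : Asm.StConst A N) (hD : Asm.StDiv N) (h : ReductionInputsModL A N) :
    ∀ m : ℕ, ¬ ℓ ∣ m → ∀ z : JZero N, m • z = 0 → reductionModL A N z = 0 → z = 0 := by
  intro m
  induction m using Nat.strong_induction_on with
  | _ m ih =>
    intro hm z hmz hz
    rcases Nat.eq_zero_or_pos m with rfl | hpos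
    · exact absurd (dvd_zero ℓ) hm
    rcases eq_or_ne m 1 with rfl | h1
    · simpa using hmz
    obtain ⟨p, hp, hpm⟩ := Nat.exists_prime_and_dvd h1
    obtain ⟨m', rfl⟩ := hpm
    have hm'0 : m' ≠ 0 := by
      rintro rfl
      simp at hpos
    have hpℓ : p ≠ ℓ := by
      rintro rfl
      exact hm (dvd_mul_right _ _)
    have hm' : ¬ ℓ ∣ m' := fun hd => hm (dvd_mul_of_dvd_right hd p)
    have hlt : m' < p * m' := by
      have := hp.two_le
      nlinarith [Nat.pos_of_ne_zero hm'0]
    have e1 : p • (m' • z) = 0 := by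
      rw [← mul_nsmul', hmz]
    have e2 : reductionModL A N (m' • z) = 0 := by
      rw [map_nsmul, hz, smul_zero]
    have e3 : m' • z = 0 := result_of_at A N p (hK p hp hpℓ) hL hC hD h (m' • z) e1 e2
    exact ih m' hlt hm' z e3 hz

/-- **The frozen statement from the Gauss-ring form at prime exponents `p ≠ ℓ`.** -/
theorem result_of_kumV {ℓ : ℕ} (hK : StKumVPrime A N ℓ) (hL : Asm.StLift A N)
    (hC : Asm.StConst A N) (hD : Asm.StDiv N) (h : ReductionInputsModL A N) (m : ℕ)
    (hm : ¬ ℓ ∣ m) (z : JZero N) (hmz : m • z = 0) (hz : reductionModL A N z = 0) : z = 0 :=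
  result_of_prime A N (fun p hp hpℓ => stKummerAt_of_stKumVAt A N hp.ne_zero (hK p hp hpℓ))
    hL hC hD h m hm z hmz hz

end Fermat.Agent.S18x.Kum
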